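import Fermat.Agent.MultKummer.Abelian
import Fermat.Agent.MultKummer.Degree
import Fermat.Agent.MultKummer.Frobenius
import Fermat.Agent.MultKummer.Independence

/-!
# Prescribed characters on a group modulo primes

For independent `a i` some `C > 0` is such that, for every `N` and every tuple `x`, infinitely many
primes `v` have the property that a monomial `∏ a i ^ f i` congruent to `1` modulo `v` has
`N ∣ C ∑ f i x i`: a Frobenius element twists the `N`-th roots of the `a i` by `ζ ^ (C x i)`.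
-/

set_option autoImplicit false
set_option linter.unusedSectionVars false

noncomputable section

open NumberField IsDedekindDomain IntermediateField
open FA.ArtinRec
open FA.HasseCyclic (nearOne)
open FA.MultDetect (radical radical_pow radical_ne_zero)

namespace FA.SkolemLocalGlobal

open MultKummer

universe u

variable {K : Type u} [Field K] [NumberField K]

local notation "Ω" => AlgebraicClosure K

theorem zpow_sum {G : Type*} [CommGroup G] (g : G) {ι : Type*} (s : Finset ι) (k : ι → ℤ) :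
    g ^ ∑ i ∈ s, k i = ∏ i ∈ s, g ^ k i := by
  classical
  induction s using Finset.induction_on with
  | empty => simp
  | insert i t hi ih => rw [Finset.sum_insert hi, Finset.prod_insert hi, zpow_add, ih]

/-- **Prescribed characters.** -/
theorem exists_character {ι : Type*} [Fintype ι] {a : ι → Kˣ} (ha : MultIndep a) :
    ∃ C : ℕ, 0 < C ∧ ∀ (N : ℕ) [NeZero N] (x : ι → ℕ) {B : Set (HeightOneSpectrum (𝓞 K))},
      B.Finite → ∃ v ∉ B, ∀ f : ι → ℤ, ∏ i, a i ^ f i ∈ nearOne v 0 →
        (N : ℤ) ∣ (C : ℤ) * ∑ i, f i * (x i : ℤ) := by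
  classical
  obtain ⟨C, hC, hrel⟩ := exists_relation_bound ha
  refine ⟨C, hC, fun N _ x B hB => ?_⟩
  set F := cyclo K N
  have : IsGalois F Ω := isGalois_cyclo N
  have hμ := rootsOfUnity_mem_range (K := K) N
  obtain ⟨ζ, hζ⟩ := HasEnoughRootsOfUnity.exists_primitiveRoot Ω N
  let b : ι → Ω := fun i => radical N (a i)
  have hb : ∀ i, b i ^ N ∈ (algebraMap F Ω).range := fun i => by
    show radical N (a i) ^ N ∈ _
    rw [radical_pow]
    exact algebraMap_mem_range N _
  obtain ⟨σ, hσ⟩ := exists_aut_of_relations hμ hζ b (fun i => radical_ne_zero N (a i)) hb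
    (fun i => C * x i) fun e ⟨y, hy⟩ => Finset.dvd_sum fun i _ => by
      rw [Nat.cast_mul, ← mul_assoc, mul_comm (e i)]
      exact (hrel N (NeZero.ne N) e ⟨y, Subtype.ext (by
        show (algebraMap F Ω y) ^ N = _
        rw [hy, monomial_pow]
        rfl)⟩ i).mul_right _
  let M : IntermediateField F Ω := adjoin F (Set.range b)
  have : FiniteDimensional F M :=
    finiteDimensional_adjoin fun z _ => Algebra.IsIntegral.isIntegral z
  have : NumberField M := NumberField.of_module_finite F M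
  have : Normal F M := normal_adjoin_radicals b hμ hb
  have : IsGalois F M := ⟨⟩
  have : IsMulCommutative (M ≃ₐ[F] M) := isMulCommutative_adjoin_radicals b hμ hb
  set g : M ≃ₐ[F] M := σ.restrictNormal M
  have hgval : ∀ z : M, ((g z : M) : Ω) = σ (z : Ω) := fun z => σ.restrictNormal_commutes M z
  set ε : Fˣ := Units.mk0 (⟨ζ, mem_cyclo hζ.pow_eq_one⟩ : F) fun h0 =>
    hζ.ne_zero (NeZero.ne N) (congrArg Subtype.val h0)
  have hεN : ε ^ N = 1 := Units.ext (Subtype.ext hζ.pow_eq_one)
  let c : ι → Fˣ := fun i => baseU (a i)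
  choose A D hA hD hAD using fun i => exists_intU_div (c i)
  set bad : Set (HeightOneSpectrum (𝓞 F)) :=
    ↑(primesAbove F hB.toFinset) ∪ {w | ((N : ℕ) : 𝓞 F) ∈ w.asIdeal} ∪
      {w | ∃ z : Fˣ, z ^ N = 1 ∧ z ≠ 1 ∧ z ∈ nearOne w 0} ∪
      ⋃ i, ({w | A i ∈ w.asIdeal} ∪ {w | D i ∈ w.asIdeal})
  have hfac : ∀ {z : 𝓞 F}, z ≠ 0 →
      {w : HeightOneSpectrum (𝓞 F) | z ∈ w.asIdeal}.Finite := fun {z} hz =>
    (Ideal.finite_factors (I := Ideal.span {z}) (by simpa using hz)).subset fun w hw =>
      Ideal.dvd_span_singleton.2 hw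
  have hbad : bad.Finite :=
    (((primesAbove _ hB.toFinset).finite_toSet.union
      (hfac (Nat.cast_ne_zero.2 (NeZero.ne N)))).union (finite_roots_near_one N)).union
        (Set.finite_iUnion fun i => (hfac (hA i)).union (hfac (hD i)))
  obtain ⟨w, hwg, hwbad⟩ := ((infinite_artinAt g).sdiff hbad).nonempty
  simp only [bad, Set.mem_union, Finset.mem_coe, mem_primesAbove, Set.Finite.mem_toFinset,
    Set.mem_ofPred_eq, Set.mem_iUnion, not_or, not_exists] at hwbad
  obtain ⟨⟨⟨hwB, hwN⟩, hwroots⟩, hwAD⟩ := hwbad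
  have : HasEnoughRootsOfUnity F N :=
    ⟨⟨(ε : F), IsPrimitiveRoot.of_map_of_injective (f := algebraMap F Ω) hζ
      (algebraMap F Ω).injective⟩, inferInstance⟩
  obtain ⟨m, hm⟩ := MultSupport.dvd_card_units (M := F) (Q := w) hwN
  have hres : ∀ i, c i ^ m / ε ^ (C * x i) ∈ nearOne w 0 := fun i => by
    obtain ⟨hAw, hDw⟩ := hwAD i
    let r : Mˣ := Units.mk0 ⟨b i, subset_adjoin _ _ ⟨i, rfl⟩⟩
      fun h0 => radical_ne_zero N (a i) (congrArg Subtype.val h0)
    have hr : r ^ N = baseU (intU (A i) (hA i) / intU (D i) (hD i)) := by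
      rw [← hAD i]
      refine Units.ext (Subtype.ext ?_)
      show radical N (a i) ^ N = _
      rw [radical_pow]
      rfl
    have hg : (artinAt M w) (r : M) =
        algebraMap F M ((ε ^ (C * x i) : Fˣ) : F) * r := by
      rw [show artinAt M w = g from hwg]
      refine Subtype.ext ((hgval _).trans ?_)
      show σ (b i) = _
      rw [hσ i]
      rfl
    rw [hAD i]
    exact pow_div_mem_nearOne_of_frob hm (hA i) (hD i) hAw hDw
      (by rw [← pow_mul, mul_comm, pow_mul, hεN, one_pow]) hr hg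
  refine ⟨belowP K w, hwB, fun f hf => ?_⟩
  have h1 : (∏ i, c i ^ f i) ^ m ∈ nearOne w 0 := by
    refine pow_mem ?_ m
    rw [show ∏ i, c i ^ f i = baseU (∏ i, a i ^ f i) by simp [c, map_prod]]
    exact (MultSupport.baseU_mem_nearOne_iff _).2 hf
  have h2 : ∏ i, (c i ^ m / ε ^ (C * x i)) ^ f i ∈ nearOne w 0 :=
    prod_mem fun i _ => zpow_mem (hres i) _
  have h3 : ε ^ ((C : ℤ) * ∑ i, f i * (x i : ℤ)) ∈ nearOne w 0 := by
    have h4 := div_mem h1 h2
    convert h4 using 1
    simp only [div_zpow, Finset.prod_div_distrib, ← zpow_natCast, ← zpow_mul, Nat.cast_mul]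
    rw [show (∏ i, c i ^ f i) ^ (m : ℤ) = ∏ i, c i ^ ((m : ℤ) * f i) by
      rw [← Finset.prod_zpow]
      exact Finset.prod_congr rfl fun i _ => by rw [← zpow_mul, mul_comm],
      div_div_cancel, Finset.mul_sum, FA.SkolemLocalGlobal.zpow_sum ε]
    exact Finset.prod_congr rfl fun i _ => by rw [mul_comm (f i), mul_assoc]
  have h5 : ε ^ ((C : ℤ) * ∑ i, f i * (x i : ℤ)) = 1 := by
    by_contra hne
    refine hwroots _ ⟨?_, hne, h3⟩
    rw [← zpow_natCast, ← zpow_mul, mul_comm, zpow_mul, zpow_natCast, hεN, one_zpow]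
  have hprim : IsPrimitiveRoot ε N := IsPrimitiveRoot.coe_units_iff.1
    (IsPrimitiveRoot.of_map_of_injective (f := algebraMap F Ω) hζ (algebraMap F Ω).injective)
  exact (hprim.zpow_eq_one_iff_dvd _).1 h5

end FA.SkolemLocalGlobal

end
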