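import Fermat.Agent.SkolemLocalGlobal.Poly

/-!
# The exponential local-global principle in rank one

For nonzero `a i` with powers in `θ ^ ℤ` the sums `∑ lam i * a i ^ n` over the integers `n` have a
zero exactly if they have one modulo every finite set of primes outside a given finite set (Skolem's
conjecture in rank one, Bartolome, Bilu and Luca); the binary recurrences `Q = ±1` as a case.
-/

set_option autoImplicit false
set_option linter.unusedSectionVars false

noncomputable section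

open NumberField IsDedekindDomain Polynomial
open FA.ArtinRec
open FA.HasseCyclic (nearOne)

namespace FA.SkolemLocalGlobal

universe u

section field

variable {K : Type u} [Field K] [NumberField K]

/-- The value of an exponential sum. -/
def expSum {ι : Type*} [Fintype ι] (lam : ι → K) (a : ι → Kˣ) (n : ℤ) : K :=
  ∑ i, lam i * ((a i : Kˣ) : K) ^ n

theorem exists_prime_notMem {B : Set (HeightOneSpectrum (𝓞 K))} (hB : B.Finite) :
    ∃ v : HeightOneSpectrum (𝓞 K), v ∉ B := by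
  obtain ⟨C, -, h⟩ := exists_character (K := K) (ι := Fin 0) (a := ![])
    fun e _ => funext fun i => i.elim0
  obtain ⟨v, hv, -⟩ := h 1 ![] hB
  exact ⟨v, hv⟩

theorem exists_primes_of_isOfFinOrder {ι : Type*} [Fintype ι] (lam : ι → K) (a : ι → Kˣ) {P : ℕ}
    (hP : 0 < P) (ha : ∀ i, a i ^ P = 1) (hu : ∀ n : ℤ, expSum lam a n ≠ 0)
    {B : Set (HeightOneSpectrum (𝓞 K))} (hB : B.Finite) :
    ∃ T : Finset (HeightOneSpectrum (𝓞 K)), (∀ v ∈ T, v ∉ B) ∧
      ∀ n : ℤ, ∃ v ∈ T, ¬ v.valuation K (expSum lam a n) < 1 := by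
  classical
  obtain ⟨v, hv⟩ := exists_prime_notMem (hB.union ((Finset.range P).finite_toSet.biUnion
    fun r _ => finite_valuation_ne_one (Units.mk0 _ (hu (r : ℕ)))))
  simp only [Set.mem_union, Set.mem_iUnion, Set.mem_ofPred_eq, not_or, not_exists, not_not,
    Units.val_mk0, Finset.mem_coe] at hv
  refine ⟨{v}, fun w hw => by rw [Finset.mem_singleton.1 hw]; exact hv.1,
    fun n => ⟨v, Finset.mem_singleton_self v, ?_⟩⟩
  obtain ⟨r, hr⟩ : ∃ r : ℕ, (r : ℤ) = n % P :=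
    ⟨_, Int.toNat_of_nonneg (Int.emod_nonneg n (Int.natCast_ne_zero.2 hP.ne'))⟩
  have hrP : r ∈ Finset.range P := by
    have := Int.emod_lt_of_pos n (Int.natCast_pos.2 hP)
    rw [Finset.mem_range]
    omega
  have he : expSum lam a n = expSum lam a (r : ℕ) := by
    refine Finset.sum_congr rfl fun i _ => ?_
    congr 1
    rw [← Units.val_zpow_eq_zpow_val, ← Units.val_zpow_eq_zpow_val, hr]
    congr 1
    conv_lhs => rw [← Int.mul_ediv_add_emod n P, zpow_add, zpow_mul, zpow_natCast, ha, one_zpow,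
      one_mul]
  rw [he, hv.2 r hrP]
  exact lt_irrefl 1

/-- The class `r + M ℤ`: two primes. -/
theorem exists_primes_class {ι : Type*} [Fintype ι] (lam : ι → K) (a : ι → Kˣ) {θ : Kˣ}
    (hθ : ¬ IsOfFinOrder θ) {M : ℕ} {k : ι → ℤ} (hk : ∀ i, a i ^ M = θ ^ k i)
    (hu : ∀ n : ℤ, expSum lam a n ≠ 0) {B : Set (HeightOneSpectrum (𝓞 K))} (hB : B.Finite)
    (r : ℤ) : ∃ T : Finset (HeightOneSpectrum (𝓞 K)), (∀ v ∈ T, v ∉ B) ∧
      ∀ t : ℤ, ∃ v ∈ T, ¬ v.valuation K (expSum lam a (r + M * t)) < 1 := by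
  classical
  set s : ℕ := ∑ i, (k i).natAbs
  set e : ι → ℕ := fun i => (k i + s).toNat with he
  have hes : ∀ i, (e i : ℤ) = k i + s := fun i => Int.toNat_of_nonneg (by
    have := Finset.single_le_sum (f := fun j => (k j).natAbs) (fun _ _ => Nat.zero_le _)
      (Finset.mem_univ i)
    omega)
  set F : K[X] := ∑ i, C (lam i * ((a i : Kˣ) : K) ^ r) * X ^ e i with hF
  have hθ0 : (θ : K) ≠ 0 := θ.ne_zero
  have hval : ∀ t : ℤ, F.eval ((θ : K) ^ t) =
      (θ : K) ^ ((s : ℤ) * t) * expSum lam a (r + M * t) := fun t => by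
    rw [hF, eval_finsetSum, expSum, Finset.mul_sum]
    refine Finset.sum_congr rfl fun i _ => ?_
    have h1 : ((a i : Kˣ) : K) ^ ((M : ℤ) * t) = (θ : K) ^ (k i * t) := by
      rw [zpow_mul, zpow_natCast, ← Units.val_pow_eq_pow_val, hk i, Units.val_zpow_eq_zpow_val,
        ← zpow_mul]
    rw [eval_mul, eval_C, eval_pow, eval_X, ← zpow_natCast, ← zpow_mul, hes i,
      zpow_add₀ (a i).ne_zero, h1, mul_comm t, add_mul, zpow_add₀ hθ0]
    ring
  obtain ⟨v₁, h₁, v₂, h₂, h⟩ := exists_two_primes hθ F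
    (fun t => by rw [hval]; exact mul_ne_zero (zpow_ne_zero _ hθ0) (hu _))
    (hB.union (finite_valuation_ne_one θ))
  simp only [Set.mem_union, Set.mem_ofPred_eq, not_or, not_not] at h₁ h₂
  refine ⟨{v₁, v₂}, fun v hv => ?_, fun t => ?_⟩
  · rcases Finset.mem_insert.1 hv with rfl | hv
    · exact h₁.1
    · rw [Finset.mem_singleton.1 hv]
      exact h₂.1
  · by_contra hall
    push Not at hall
    refine h t ⟨?_, ?_⟩
    · rw [hval, map_mul, map_zpow₀, h₁.2, one_zpow, one_mul]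
      exact hall v₁ (Finset.mem_insert_self _ _)
    · rw [hval, map_mul, map_zpow₀, h₂.2, one_zpow, one_mul]
      exact hall v₂ (Finset.mem_insert_of_mem (Finset.mem_singleton_self _))

/-- **Skolem's principle in rank one.** -/
theorem expSum_zero_iff {ι : Type*} [Fintype ι] (lam : ι → K) (a : ι → Kˣ) (θ : Kˣ)
    (ha : ∀ i, ∃ (M : ℕ) (k : ℤ), 0 < M ∧ a i ^ M = θ ^ k)
    {B : Set (HeightOneSpectrum (𝓞 K))} (hB : B.Finite) :
    (∀ T : Finset (HeightOneSpectrum (𝓞 K)), (∀ v ∈ T, v ∉ B) →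
        ∃ n : ℤ, ∀ v ∈ T, v.valuation K (expSum lam a n) < 1) ↔
      ∃ n : ℤ, expSum lam a n = 0 := by
  classical
  refine ⟨fun hloc => ?_, fun ⟨n, hn⟩ T _ => ⟨n, fun v _ => by
    rw [hn, map_zero]; exact zero_lt_one⟩⟩
  by_contra hu
  push Not at hu
  choose M k hM hk using ha
  set N : ℕ := ∏ i, M i with hN
  have hN0 : 0 < N := Finset.prod_pos fun i _ => hM i
  have hkN : ∀ i, a i ^ N = θ ^ (k i * ((N / M i : ℕ) : ℤ)) := fun i => by
    have hdvd : M i ∣ N := Finset.dvd_prod_of_mem M (Finset.mem_univ i)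
    calc a i ^ N = a i ^ (M i * (N / M i)) := by rw [Nat.mul_div_cancel' hdvd]
      _ = _ := by rw [pow_mul, hk i, ← zpow_natCast, ← zpow_mul]
  by_cases hθ : IsOfFinOrder θ
  · obtain ⟨o, ho, hθo⟩ := isOfFinOrder_iff_pow_eq_one.1 hθ
    obtain ⟨T, hT, h⟩ := exists_primes_of_isOfFinOrder lam a (Nat.mul_pos hN0 ho) (fun i => by
      rw [pow_mul, hkN, ← zpow_natCast, ← zpow_mul, mul_comm, zpow_mul, zpow_natCast, hθo,
        one_zpow]) hu hB
    obtain ⟨n, hn⟩ := hloc T hT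
    obtain ⟨v, hv, hvn⟩ := h n
    exact hvn (hn v hv)
  choose T hT h using fun r : ℕ => exists_primes_class lam a hθ hkN hu hB (r : ℤ)
  obtain ⟨n, hn⟩ := hloc ((Finset.range N).biUnion T) fun v hv => by
    obtain ⟨r, -, hr⟩ := Finset.mem_biUnion.1 hv
    exact hT r v hr
  obtain ⟨r, hr⟩ : ∃ r : ℕ, (r : ℤ) = n % N :=
    ⟨_, Int.toNat_of_nonneg (Int.emod_nonneg n (Int.natCast_ne_zero.2 hN0.ne'))⟩
  have hrN : r ∈ Finset.range N := by
    have := Int.emod_lt_of_pos n (Int.natCast_pos.2 hN0)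
    rw [Finset.mem_range]
    omega
  obtain ⟨v, hv, hvn⟩ := h r (n / N)
  rw [hr, Int.emod_add_mul_ediv] at hvn
  exact hvn (hn v (Finset.mem_biUnion.2 ⟨r, hrN, hv⟩))

end field

/-- The quadratic invariant of a binary recurrence. -/
theorem recurrence_invariant {P Q : ℤ} (hQ : Q = 1 ∨ Q = -1) {u : ℤ → ℤ}
    (hu : ∀ n, u (n + 2) = P * u (n + 1) + Q * u n) (n : ℤ) :
    (u (n + 1) ^ 2 - P * u (n + 1) * u n - Q * u n ^ 2).natAbs =
      (u 1 ^ 2 - P * u 1 * u 0 - Q * u 0 ^ 2).natAbs := by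
  set I : ℤ → ℤ := fun n => u (n + 1) ^ 2 - P * u (n + 1) * u n - Q * u n ^ 2
  have hI : ∀ m, (I (m + 1)).natAbs = (I m).natAbs := fun m => by
    have e : I (m + 1) = -Q * I m := by
      simp only [I]
      rw [show m + 1 + 1 = m + 2 by ring, hu m]
      ring
    rw [e, Int.natAbs_mul, Int.natAbs_neg]
    rcases hQ with rfl | rfl <;> simp
  show (I n).natAbs = _
  induction n using Int.induction_on with
  | zero => simp [I]
  | succ k ih => rw [hI, ih]
  | pred k ih =>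
    rw [← ih, ← hI (-(k : ℤ) - 1), sub_add_cancel]

/-- A recurrence whose invariant is no square up to sign has no zero. -/
theorem recurrence_ne_zero {P Q : ℤ} (hQ : Q = 1 ∨ Q = -1) {u : ℤ → ℤ}
    (hu : ∀ n, u (n + 2) = P * u (n + 1) + Q * u n)
    (hI : ¬ IsSquare (u 1 ^ 2 - P * u 1 * u 0 - Q * u 0 ^ 2).natAbs) (n : ℤ) : u n ≠ 0 := by
  intro h0
  have h := recurrence_invariant hQ hu n
  rw [h0, mul_zero, sub_zero, zero_pow two_ne_zero, mul_zero, sub_zero, Int.natAbs_pow] at h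
  exact hI ⟨_, by rw [← h, sq]⟩

/-- The exponential form of a binary recurrence on the integers. -/
theorem recurrence_eq {F : Type*} [Field F] {P Q : ℤ} {α β : F} (hs : α + β = P)
    (hp : α * β = -(Q : F)) (hQ : (Q : F) ≠ 0) (hne : α ≠ β) {u : ℤ → ℤ}
    (hu : ∀ n, u (n + 2) = P * u (n + 1) + Q * u n) (n : ℤ) :
    (u n : F) = ((u 1 : F) - β * u 0) / (α - β) * α ^ n + (α * u 0 - u 1) / (α - β) * β ^ n := by
  have hα : α ≠ 0 := fun h => hQ (by rw [← neg_eq_zero, ← hp, h, zero_mul])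
  have hβ : β ≠ 0 := fun h => hQ (by rw [← neg_eq_zero, ← hp, h, mul_zero])
  have hd : α - β ≠ 0 := sub_ne_zero.2 hne
  set A := ((u 1 : F) - β * u 0) / (α - β) with hA
  set B := (α * u 0 - (u 1 : F)) / (α - β) with hB
  have hrec : ∀ m, (u (m + 2) : F) = (α + β) * u (m + 1) - α * β * u m := fun m => by
    rw [hu, hs, hp]
    push_cast
    ring
  suffices h : (u n : F) = A * α ^ n + B * β ^ n ∧
      (u (n + 1) : F) = A * α ^ (n + 1) + B * β ^ (n + 1) from h.1
  induction n using Int.induction_on with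
  | zero =>
    constructor
    · rw [hA, hB, zpow_zero, zpow_zero]
      field_simp
      ring
    · rw [hA, hB, zero_add, zpow_one, zpow_one]
      field_simp
      ring
  | succ k ih =>
    refine ⟨ih.2, ?_⟩
    rw [show (k : ℤ) + 1 + 1 = k + 2 by ring, hrec, ih.1, ih.2, zpow_add₀ hα, zpow_add₀ hα,
      zpow_add₀ hβ, zpow_add₀ hβ, zpow_one, zpow_one, zpow_two, zpow_two]
    ring
  | pred k ih =>
    refine ⟨?_, by rw [sub_add_cancel]; exact ih.1⟩
    have h := hrec (-(k : ℤ) - 1)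
    rw [show -(k : ℤ) - 1 + 2 = -(k : ℤ) + 1 by ring, sub_add_cancel, ih.1, ih.2,
      zpow_add₀ hα, zpow_add₀ hβ, zpow_one, zpow_one] at h
    rw [zpow_sub₀ hα, zpow_sub₀ hβ, zpow_one, zpow_one]
    refine mul_left_cancel₀ (mul_ne_zero hα hβ) ?_
    field_simp
    linear_combination h

/-- **Binary recurrences with `Q = ±1`**: squarefree moduli prime to `N₀` suffice. -/
theorem recurrence_zero_iff {P Q : ℤ} (hQ : Q = 1 ∨ Q = -1) (hD : P ^ 2 + 4 * Q ≠ 0) {u : ℤ → ℤ}
    (hu : ∀ n, u (n + 2) = P * u (n + 1) + Q * u n) {N₀ : ℕ} (hN₀ : 0 < N₀) :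
    (∀ m : ℕ, Squarefree m → Nat.Coprime m N₀ → ∃ n : ℤ, (m : ℤ) ∣ u n) ↔ ∃ n : ℤ, u n = 0 := by
  classical
  refine ⟨fun hloc => ?_, fun ⟨n, hn⟩ m _ _ => ⟨n, by rw [hn]; exact dvd_zero _⟩⟩
  obtain ⟨r, hr⟩ := IsAlgClosed.exists_pow_nat_eq ((P : ℂ) ^ 2 + 4 * Q) two_pos
  set α : ℂ := ((P : ℂ) + r) / 2 with hα
  have hr0 : r ≠ 0 := fun h => hD (by
    rw [h, zero_pow two_ne_zero] at hr
    exact_mod_cast hr.symm)
  have hαf : α ^ 2 - P * α - Q = 0 := by
    rw [hα]
    linear_combination hr / 4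
  have hint : IsIntegral ℤ α :=
    ⟨X ^ 2 - C P * X - C Q, by monicity!, by rw [← aeval_def]; simpa using hαf⟩
  set F : IntermediateField ℚ ℂ := IntermediateField.adjoin ℚ {α}
  have : FiniteDimensional ℚ F :=
    IntermediateField.adjoin.finiteDimensional (hint.tower_top (A := ℚ))
  have : NumberField F := { to_charZero := inferInstance, to_finiteDimensional := inferInstance }
  obtain ⟨x, hx⟩ : ∃ x : F, (x : ℂ) = α := ⟨⟨α, IntermediateField.mem_adjoin_simple_self ℚ α⟩, rfl⟩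
  set y : F := (P : F) - x with hy
  have hs : x + y = (P : F) := by rw [hy]; ring
  have hp : x * y = -(Q : F) := Subtype.ext (by
    simp [hy, hx]
    linear_combination -hαf)
  have hQ0 : (Q : F) ≠ 0 := by rcases hQ with rfl | rfl <;> simp
  have hne : x ≠ y := fun h => hr0 (by
    have h1 := congrArg (fun z : F => (z : ℂ)) h
    simp [hy, hx] at h1
    rw [hα] at h1
    linear_combination h1)
  have hx0 : x ≠ 0 := fun h => hQ0 (by rw [← neg_eq_zero, ← hp, h, zero_mul])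
  have hy0 : y ≠ 0 := fun h => hQ0 (by rw [← neg_eq_zero, ← hp, h, mul_zero])
  set a : Fin 2 → Fˣ := ![Units.mk0 x hx0, Units.mk0 y hy0]
  set lam : Fin 2 → F := ![((u 1 : F) - y * u 0) / (x - y), (x * u 0 - u 1) / (x - y)]
  have hsum : ∀ n, (u n : F) = expSum lam a n := fun n => by
    rw [recurrence_eq hs hp hQ0 hne hu n, expSum, Fin.sum_univ_two]
    simp [a, lam]
  have hrank : ∀ i, ∃ (M : ℕ) (k : ℤ), 0 < M ∧ a i ^ M = Units.mk0 x hx0 ^ k := by
    refine Fin.forall_fin_two.2 ⟨⟨1, 1, one_pos, by simp [a]⟩, ⟨2, -2, two_pos, ?_⟩⟩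
    have h2 : (x * y) ^ 2 = 1 := by
      rw [hp]
      rcases hQ with rfl | rfl <;> simp
    refine Units.ext ?_
    simp only [a, Matrix.cons_val_one, Matrix.cons_val_fin_one, Units.val_pow_eq_pow_val,
      Units.val_mk0, zpow_neg]
    rw [show (2 : ℤ) = ((2 : ℕ) : ℤ) from rfl, zpow_natCast, Units.val_inv_eq_inv_val,
      Units.val_pow_eq_pow_val, Units.val_mk0]
    rw [mul_comm x y, mul_pow] at h2
    exact eq_inv_of_mul_eq_one_left h2
  have hB : {v : HeightOneSpectrum (𝓞 F) | (N₀ : 𝓞 F) ∈ v.asIdeal}.Finite :=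
    (Ideal.finite_factors (I := Ideal.span {(N₀ : 𝓞 F)}) (by simpa using hN₀.ne')).subset
      fun v hv => Ideal.dvd_span_singleton.2 hv
  obtain ⟨n, hn⟩ := (expSum_zero_iff lam a (Units.mk0 x hx0) hrank hB).1 fun T hT => by
    choose p hpp hpv using fun v : HeightOneSpectrum (𝓞 F) => Postnikova.exists_residue_prime v
    have hsq : Squarefree (∏ q ∈ T.image p, q) :=
      (Finset.squarefree_prod_of_pairwise_isCoprime ?_ ?_)
    rotate_left
    · intro q hq q' hq' hne'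
      obtain ⟨v, -, rfl⟩ := Finset.mem_image.1 hq
      obtain ⟨v', -, rfl⟩ := Finset.mem_image.1 hq'
      exact Nat.coprime_iff_isRelPrime.1 ((Nat.coprime_primes (hpp v) (hpp v')).2 hne')
    · intro q hq
      obtain ⟨v, -, rfl⟩ := Finset.mem_image.1 hq
      exact (hpp v).squarefree
    obtain ⟨n, hn⟩ := hloc _ hsq (Nat.Coprime.prod_left fun q hq => by
      obtain ⟨v, hv, rfl⟩ := Finset.mem_image.1 hq
      refine ((hpp v).coprime_iff_not_dvd).2 fun hdvd => hT v hv ?_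
      have h1 := (hpv v (N₀ : ℤ)).2 (Int.natCast_dvd_natCast.2 hdvd)
      rw [Int.cast_natCast, show ((N₀ : ℕ) : F) = ((N₀ : 𝓞 F) : F) from (map_natCast _ _).symm,
        HeightOneSpectrum.valuation_lt_one_iff_mem] at h1
      exact h1)
    refine ⟨n, fun v hv => ?_⟩
    rw [← hsum]
    exact (hpv v (u n)).2 ((Int.natCast_dvd_natCast.2
      (Finset.dvd_prod_of_mem (fun q => q) (Finset.mem_image_of_mem p hv))).trans hn)
  exact ⟨n, Int.cast_eq_zero.1 ((hsum n).trans hn)⟩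

end FA.SkolemLocalGlobal

end
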