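import Fermat.Agent.SkolemLocalGlobal.Characters
import Fermat.Agent.Postnikova.Lehmer
import Mathlib.FieldTheory.SplittingField.Construction

/-!
# Polynomials at the powers of a number

If `F (θ ^ t) ≠ 0` for every integer `t` then two primes outside a given finite set are such that
for no `t` both divide `F (θ ^ t)`: a character modulo the first, trivial on the part of the roots
independent of `θ`, fixes `t` modulo `N` up to finitely many values `n₀`, and at the second `θ ^ N`
is `1` but no `F (θ ^ n₀)` is `0`.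
-/

set_option autoImplicit false
set_option linter.unusedSectionVars false

noncomputable section

open NumberField IsDedekindDomain Polynomial
open FA.ArtinRec
open FA.HasseCyclic (nearOne)

namespace FA.SkolemLocalGlobal

open MultKummer

universe u

variable {K : Type u} [Field K] [NumberField K]

theorem valuation_eq_one_iff_ord {v : HeightOneSpectrum (𝓞 K)} (x : Kˣ) :
    v.valuation K x = 1 ↔ ord v x = 0 := by
  rw [ord_eq_iff, neg_zero, WithZero.exp_zero]

theorem finite_valuation_ne_one (x : Kˣ) :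
    {v : HeightOneSpectrum (𝓞 K) | v.valuation K x ≠ 1}.Finite :=
  (finite_ord_ne_zero x).subset fun _ hv h0 => hv ((valuation_eq_one_iff_ord x).2 h0)

theorem finite_valuation_gt_one (z : K) :
    {v : HeightOneSpectrum (𝓞 K) | 1 < v.valuation K z}.Finite := by
  rcases eq_or_ne z 0 with rfl | hz
  · exact Set.finite_empty.subset fun v hv => by simp at hv
  · exact (finite_valuation_ne_one (Units.mk0 z hz)).subset
      fun v (hv : 1 < v.valuation K z) => ne_of_gt hv

theorem valuation_baseU_lt_one {L : Type*} [Field L] [NumberField L] [Algebra K L]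
    {Q : HeightOneSpectrum (𝓞 L)} {z : Kˣ} (h : (belowP K Q).valuation K z < 1) :
    Q.valuation L (baseU (L := L) z : Lˣ) < 1 := by
  rw [valuation_eq_exp, ← WithZero.exp_zero, WithZero.exp_lt_exp] at h ⊢
  rw [ord_baseU]
  have he : (1 : ℤ) ≤ eIdx K Q := by exact_mod_cast eIdx_pos (K := K) Q
  nlinarith

theorem valuation_eval_sub_lt {v : HeightOneSpectrum (𝓞 K)} (F : K[X])
    (hF : ∀ i, v.valuation K (F.coeff i) ≤ 1) {x y : K} (hx : v.valuation K x ≤ 1)
    (hy : v.valuation K y ≤ 1) (hxy : v.valuation K (x - y) < 1) :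
    v.valuation K (F.eval x - F.eval y) < 1 := by
  rw [eval_eq_sum_range, eval_eq_sum_range, ← Finset.sum_sub_distrib]
  refine (v.valuation K).map_sum_lt one_ne_zero fun i _ => ?_
  rw [← mul_sub, map_mul, ← geom_sum₂_mul, map_mul]
  refine (mul_le_of_le_one_left zero_le (hF i)).trans_lt
    ((mul_le_of_le_one_left zero_le ((v.valuation K).map_sum_le fun j _ => ?_)).trans_lt hxy)
  rw [map_mul, map_pow, map_pow]
  exact mul_le_one₀ (pow_le_one₀ zero_le hx) zero_le (pow_le_one₀ zero_le hy)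

theorem mem_nearOne_of_sub {v : HeightOneSpectrum (𝓞 K)} {x y : Kˣ}
    (hy : v.valuation K y = 1) (h : v.valuation K ((x : K) - y) < 1) : x / y ∈ nearOne v 0 := by
  rw [MultSupport.mem_nearOne_zero_iff, Units.val_div_eq_div_val,
    div_sub_one y.ne_zero, map_div₀, hy, div_one]
  exact h

/-- A large order avoiding a finite set of primes. -/
theorem exists_exact_order {θ : Kˣ} (hθ : ¬ IsOfFinOrder θ) {B : Set (HeightOneSpectrum (𝓞 K))}
    (hB : B.Finite) : ∃ N : ℕ, 0 < N ∧ ∃ v ∉ B, v.valuation K (θ : K) = 1 ∧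
      θ ^ N ∈ nearOne v 0 := by
  obtain ⟨N₀, hN₀⟩ := (Postnikova.eventually_order_iff θ.ne_zero).2 fun i hi h =>
    hθ (isOfFinOrder_iff_pow_eq_one.2 ⟨i, hi, Units.ext h⟩)
  set N := N₀ + ∑ v ∈ hB.toFinset, Ideal.absNorm v.asIdeal + 1
  obtain ⟨v, hv⟩ := hN₀ N (by omega)
  have hN : 0 < N := by omega
  have hdvd := Postnikova.dvd_absNorm_sub_one hN hv
  refine ⟨N, hN, v, fun hvB => ?_, Postnikova.valuation_eq_one_of_order hN ((hv N).2 dvd_rfl), ?_⟩
  · have h1 := Finset.single_le_sum (f := fun w : HeightOneSpectrum (𝓞 K) =>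
      Ideal.absNorm w.asIdeal) (fun _ _ => Nat.zero_le _) (hB.mem_toFinset.2 hvB)
    have h2 : 2 ≤ Ideal.absNorm v.asIdeal := by
      have h0 : Ideal.absNorm v.asIdeal ≠ 0 := fun h => v.ne_bot (Ideal.absNorm_eq_zero_iff.1 h)
      have h1 : Ideal.absNorm v.asIdeal ≠ 1 := fun h =>
        v.isPrime.ne_top (Ideal.absNorm_eq_one_iff.1 h)
      omega
    have h3 := Nat.le_of_dvd (by omega) hdvd
    omega
  · rw [MultSupport.mem_nearOne_zero_iff, Units.val_pow_eq_pow_val]
    exact (hv N).2 dvd_rfl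

section relations

variable {G : Type*} [CommGroup G]

/-- A finite set of group elements has a maximal part independent together with `θ`. -/
theorem exists_relations {θ : G} (hθ : ¬ IsOfFinOrder θ) (R : Finset G) :
    ∃ s : Finset G, (∀ f : Option s → ℤ,
        ∏ o : Option s, (o.elim θ fun i => (i : G)) ^ f o = 1 → f = 0) ∧
      ∀ β ∈ R, ∃ (E : ℕ) (e : ℤ) (g : s → ℤ), 0 < E ∧ β ^ E = θ ^ e * ∏ i : s, (i : G) ^ g i := by
  classical
  set Ind : Finset G → Prop := fun s => ∀ f : Option s → ℤ,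
    ∏ o : Option s, (o.elim θ fun i => (i : G)) ^ f o = 1 → f = 0
  have h0 : Ind ∅ := fun f hf => by
    funext o
    cases o with
    | none =>
      by_contra hne
      simp only [Fintype.prod_option, Option.elim_none, Finset.univ_eq_empty, Finset.prod_empty,
        mul_one] at hf
      exact hθ (isOfFinOrder_iff_zpow_eq_one.2 ⟨_, hne, hf⟩)
    | some i => exact absurd i.2 (Finset.notMem_empty _)
  obtain ⟨s, hs, hmax⟩ := Finset.exists_max_image (R.powerset.filter Ind) Finset.card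
    ⟨∅, Finset.mem_filter.2 ⟨Finset.empty_mem_powerset R, h0⟩⟩
  obtain ⟨hsR, hsI⟩ := Finset.mem_filter.1 hs
  refine ⟨s, hsI, fun β hβ => ?_⟩
  by_cases hβs : β ∈ s
  · refine ⟨1, 0, Pi.single ⟨β, hβs⟩ 1, one_pos, ?_⟩
    rw [pow_one, zpow_zero, one_mul, Finset.prod_eq_single ⟨β, hβs⟩]
    · simp
    · intro i _ hi
      rw [Pi.single_eq_of_ne hi, zpow_zero]
    · simp
  · have hnot : ¬ Ind (insert β s) := fun hI => by
      have := hmax _ (Finset.mem_filter.2 ⟨Finset.mem_powerset.2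
        (Finset.insert_subset hβ (Finset.mem_powerset.1 hsR)), hI⟩)
      rw [Finset.card_insert_of_notMem hβs] at this
      omega
    simp only [Ind, not_forall] at hnot
    obtain ⟨f, hf, hf0⟩ := hnot
    set c := f (some ⟨β, Finset.mem_insert_self β s⟩)
    set g : s → ℤ := fun i => f (some ⟨i, Finset.mem_insert_of_mem i.2⟩)
    have hprod : θ ^ f none * (β ^ c * ∏ i : s, (i : G) ^ g i) = 1 := by
      rw [← hf, Fintype.prod_option]
      congr 1
      let F : G → G := fun z => if h : z ∈ insert β s then z ^ f (some ⟨z, h⟩) else 1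
      have e1 : ∏ i : (insert β s : Finset G), (i : G) ^ f (some i) = ∏ z ∈ insert β s, F z := by
        rw [← Finset.prod_coe_sort (insert β s) F]
        exact Finset.prod_congr rfl fun i _ => by simp only [F, dif_pos i.2]
      have e2 : ∏ i : s, (i : G) ^ g i = ∏ z ∈ s, F z := by
        rw [← Finset.prod_coe_sort s F]
        exact Finset.prod_congr rfl fun i _ => by
          simp only [F, g, dif_pos (Finset.mem_insert_of_mem i.2)]
      show β ^ c * ∏ i : s, (i : G) ^ g i = ∏ i : (insert β s : Finset G), (i : G) ^ f (some i)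
      rw [e1, e2, Finset.prod_insert hβs]
      simp only [F, c, dif_pos (Finset.mem_insert_self β s)]
    have hc : c ≠ 0 := by
      intro hc
      have h1 := hsI (fun o => o.elim (f none) g) (by
        rw [Fintype.prod_option]
        simpa [hc] using hprod)
      apply hf0
      funext o
      cases o with
      | none => exact congrFun h1 none
      | some i =>
        rcases Finset.mem_insert.1 i.2 with h | h
        · rw [show i = ⟨β, Finset.mem_insert_self β s⟩ from Subtype.ext h]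
          exact hc
        · exact congrFun h1 (some ⟨i, h⟩)
    refine ⟨c.natAbs, -(c.sign * f none), fun i => -(c.sign * g i), Int.natAbs_pos.2 hc, ?_⟩
    have h1 : β ^ c = θ ^ (-f none) * ∏ i : s, (i : G) ^ (-g i) := by
      simp only [zpow_neg, Finset.prod_inv_distrib]
      rw [← mul_inv, eq_inv_iff_mul_eq_one, ← hprod, mul_left_comm]
    rw [← zpow_natCast, ← Int.sign_mul_self c, mul_comm, zpow_mul, h1, mul_zpow, ← zpow_mul,
      ← Finset.prod_zpow]
    congr 1
    · rw [neg_mul, mul_comm]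
    · exact Finset.prod_congr rfl fun i _ => by rw [← zpow_mul, neg_mul, mul_comm]

end relations

/-- **The prime in an extension.** -/
theorem exists_separating_prime {L : Type u} [Field L] [NumberField L] {θ : Lˣ}
    (hθ : ¬ IsOfFinOrder θ) (R : Finset Lˣ) :
    ∃ n₀ : Lˣ → ℤ, ∀ N : ℕ, 0 < N → ∀ {B : Set (HeightOneSpectrum (𝓞 L))}, B.Finite →
      ∃ v ∉ B, ∀ β ∈ R, ∀ t : ℤ, θ ^ t / β ∈ nearOne v 0 → (N : ℤ) ∣ t - n₀ β := by
  classical
  obtain ⟨s, hsI, hrel⟩ := exists_relations hθ R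
  choose E e g hE heq using fun β : R => hrel β β.2
  refine ⟨fun β => if h : β ∈ R then e ⟨β, h⟩ / (E ⟨β, h⟩ : ℤ) else 0, fun N hN B hB => ?_⟩
  obtain ⟨C, hC, hchar⟩ := exists_character (a := fun o : Option s => o.elim θ fun i => (i : Lˣ))
    hsI
  set Etot : ℕ := ∏ β, E β with hEtot
  have : NeZero (C * (Etot * N)) := ⟨(Nat.mul_pos hC (Nat.mul_pos
    (Finset.prod_pos fun β _ => hE β) hN)).ne'⟩
  obtain ⟨v, hv, hf⟩ := hchar (C * (Etot * N)) (fun o => o.elim 1 fun _ => 0) hB
  refine ⟨v, hv, fun β hβ t ht => ?_⟩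
  simp only [dif_pos hβ]
  obtain ⟨b, hb⟩ : ∃ b : R, b = ⟨β, hβ⟩ := ⟨_, rfl⟩
  rw [← hb]
  have hbe : (b : Lˣ) = β := by rw [hb]
  have h1 := hf (fun o => o.elim (t * E b - e b) fun i => -g b i) (by
    rw [Fintype.prod_option]
    have h2 := pow_mem ht (E b)
    convert h2 using 1
    rw [div_pow, ← hbe, heq b, ← zpow_natCast (θ ^ t), ← zpow_mul]
    simp only [Option.elim, zpow_neg, Finset.prod_inv_distrib, zpow_sub, div_eq_mul_inv,
      mul_inv_rev]
    rw [mul_comm (∏ i : s, (i : Lˣ) ^ g b i)⁻¹, ← mul_assoc])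
  simp only [Fintype.sum_option, Option.elim, Nat.cast_one, mul_one, Nat.cast_zero, mul_zero,
    Finset.sum_const_zero, add_zero, Nat.cast_mul] at h1
  have h6 : ((Etot : ℤ) * N) ∣ t * E b - e b := Int.dvd_of_mul_dvd_mul_left (by omega) h1
  have h7 : (E b : ℤ) ∣ (Etot : ℤ) := by
    exact_mod_cast Finset.dvd_prod_of_mem E (Finset.mem_univ b)
  obtain ⟨q, hq⟩ := (mul_dvd_mul_right h7 (N : ℤ)).trans h6
  have he : e b = (t - q * N) * E b := by linear_combination -hq
  refine ⟨q, ?_⟩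
  rw [he, Int.mul_ediv_cancel _ (by exact_mod_cast (hE b).ne')]
  ring

/-- **The local-global principle for `F (θ ^ t)`.** -/
theorem exists_two_primes {θ : Kˣ} (hθ : ¬ IsOfFinOrder θ) (F : K[X])
    (hF : ∀ t : ℤ, F.eval ((θ : K) ^ t) ≠ 0) {B : Set (HeightOneSpectrum (𝓞 K))} (hB : B.Finite) :
    ∃ v₁ ∉ B, ∃ v₂ ∉ B, ∀ t : ℤ,
      ¬ (v₁.valuation K (F.eval ((θ : K) ^ t)) < 1 ∧
        v₂.valuation K (F.eval ((θ : K) ^ t)) < 1) := by
  classical
  have hF0 : F ≠ 0 := fun h => hF 0 (by rw [h, eval_zero])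
  let L := F.SplittingField
  have : NumberField L := NumberField.of_module_finite K L
  set φ := algebraMap K L
  set θL : Lˣ := baseU θ
  have hθL : ¬ IsOfFinOrder θL := by
    rw [isOfFinOrder_iff_pow_eq_one]
    rintro ⟨i, hi, h⟩
    exact hθ (isOfFinOrder_iff_pow_eq_one.2 ⟨i, hi,
      Units.map_injective (f := (φ : K →* L)) φ.injective (by rw [map_pow, map_one]; exact h)⟩)
  set Z : Finset L := (F.map φ).roots.toFinset.erase 0
  set R : Finset Lˣ := Z.attach.image
    fun z : {x // x ∈ Z} => Units.mk0 z.1 (Finset.mem_erase.1 z.2).1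
  obtain ⟨n₀, hsep⟩ := exists_separating_prime hθL R
  -- the second prime
  set bad₂ : Set (HeightOneSpectrum (𝓞 K)) := B ∪
    (⋃ i ∈ F.support, {v | 1 < v.valuation K (F.coeff i)}) ∪
    ⋃ β ∈ R, {v | v.valuation K (F.eval ((θ : K) ^ n₀ β)) ≠ 1}
  have hbad₂ : bad₂.Finite := (hB.union (F.support.finite_toSet.biUnion fun i _ =>
    finite_valuation_gt_one _)).union (R.finite_toSet.biUnion fun β _ =>
      finite_valuation_ne_one (Units.mk0 _ (hF (n₀ β))))
  obtain ⟨N, hN, v₂, hv₂, hθ₂, hθN⟩ := exists_exact_order hθ hbad₂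
  simp only [bad₂, Set.mem_union, Set.mem_iUnion, Set.mem_ofPred_eq, not_or, not_exists,
    not_lt, not_not] at hv₂
  obtain ⟨⟨hv₂B, hv₂c⟩, hv₂n⟩ := hv₂
  -- the first prime
  set bad₁ : Set (HeightOneSpectrum (𝓞 L)) := ↑(primesAbove L hB.toFinset) ∪
    {w | w.valuation L (θL : L) ≠ 1} ∪ {w | w.valuation L (φ F.leadingCoeff) ≠ 1} ∪
    ⋃ β ∈ R, {w | w.valuation L (β : L) ≠ 1}
  have hbad₁ : bad₁.Finite := (((primesAbove L hB.toFinset).finite_toSet.union
    (finite_valuation_ne_one θL)).union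
    (finite_valuation_ne_one (Units.mk0 _ ((map_ne_zero φ).2 (leadingCoeff_ne_zero.2 hF0))))).union
        (R.finite_toSet.biUnion fun β _ => finite_valuation_ne_one β)
  obtain ⟨w, hw, hwsep⟩ := hsep N hN hbad₁
  simp only [bad₁, Set.mem_union, Finset.mem_coe, mem_primesAbove, Set.Finite.mem_toFinset,
    Set.mem_iUnion, Set.mem_ofPred_eq, not_or, not_exists, not_not] at hw
  obtain ⟨⟨⟨hwB, hwθ⟩, hwlead⟩, hwR⟩ := hw
  refine ⟨belowP K w, hwB, v₂, hv₂B, fun t ⟨h₁, h₂⟩ => ?_⟩
  have h₁' := valuation_baseU_lt_one (L := L) (z := Units.mk0 _ (hF t)) h₁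
  rw [baseU_val, Units.val_mk0, ← eval_map_apply,
    (SplittingField.splits F).eq_prod_roots, leadingCoeff_map, eval_mul, eval_C, map_mul, hwlead,
    one_mul, eval_multiset_prod, map_multiset_prod, Multiset.map_map, Multiset.map_map] at h₁'
  obtain ⟨z, hz, hzt⟩ : ∃ z ∈ (F.map φ).roots, w.valuation L ((φ ((θ : K) ^ t)) - z) ≠ 1 := by
    by_contra hall
    push Not at hall
    refine h₁'.ne (Multiset.prod_eq_one fun y hy => ?_)
    obtain ⟨z, hz, rfl⟩ := Multiset.mem_map.1 hy
    simpa using hall z hz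
  have hθt : (φ ((θ : K) ^ t)) = ((θL ^ t : Lˣ) : L) := by
    simp [θL, baseU_val, Units.val_zpow_eq_zpow_val, φ]
  have hθt1 : w.valuation L ((θL ^ t : Lˣ) : L) = 1 := by
    rw [Units.val_zpow_eq_zpow_val, map_zpow₀, hwθ, one_zpow]
  have hz0 : z ≠ 0 := by
    rintro rfl
    rw [sub_zero, hθt, hθt1] at hzt
    exact hzt rfl
  have hzR : Units.mk0 z hz0 ∈ R := Finset.mem_image.2
    ⟨⟨z, Finset.mem_erase.2 ⟨hz0, Multiset.mem_toFinset.2 hz⟩⟩, Finset.mem_attach _ _, rfl⟩
  have hzlt : w.valuation L (((θL ^ t : Lˣ) : L) - z) < 1 := by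
    refine lt_of_le_of_ne ((w.valuation L).map_sub_le hθt1.le (hwR _ hzR).le) ?_
    rwa [← hθt]
  obtain ⟨q, hq⟩ := hwsep _ hzR t (mem_nearOne_of_sub (hwR _ hzR) hzlt)
  have hcong : v₂.valuation K ((θ : K) ^ t - (θ : K) ^ n₀ (Units.mk0 z hz0)) < 1 := by
    have h3 := MultSupport.mem_nearOne_zero_iff.1 (zpow_mem hθN q)
    rw [← zpow_natCast, ← zpow_mul, ← hq, Units.val_zpow_eq_zpow_val, zpow_sub₀ θ.ne_zero,
      div_sub_one (zpow_ne_zero _ θ.ne_zero), map_div₀, map_zpow₀ _ _ (n₀ _), hθ₂, one_zpow,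
      div_one] at h3
    exact h3
  have h4 := valuation_eval_sub_lt F (fun i => ?_)
    (by rw [map_zpow₀, hθ₂, one_zpow]) (by rw [map_zpow₀, hθ₂, one_zpow]) hcong
  · have h5 := ((v₂.valuation K).map_sub _ _).trans_lt (max_lt h₂ h4)
    rw [sub_sub_cancel, hv₂n _ hzR] at h5
    exact lt_irrefl _ h5
  · by_cases hi : i ∈ F.support
    · exact hv₂c i hi
    · rw [notMem_support_iff.1 hi, map_zero]
      exact zero_le

end FA.SkolemLocalGlobal

end
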